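import Fermat.Agent.Lib.Div.Defs

set_option autoImplicit false
set_option linter.unusedVariables false

/-!
# DIV, work package E1, pieces (E0) and (E0') (helper22)

Proofs of the stubs `isGen_of_ev_not_mem` and `smul_eq_of_ev_mem` of `Lib/Div/Gen.lean` (same
statements, names `*_pf`), from the dichotomy `DescPlaces.dich` (a place of `F_K'` is an extension
place or is trivial on `θ F_K`) and `DescPlaces.smul_ext`.
-/

noncomputable section

namespace Fermat.Agent.Div

open ModularCurve HahnSeries AlgebraicCurve Fermat.Agent.RR Fermat.Agent.F3I2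
open Fermat.Agent.S17 Cardinal

variable {K K' : Type*} [Field K] [Field K'] [Algebra ℚ K] [Algebra ℚ K'] [Algebra K K']
variable {F₀ : IntermediateField ℚ (LaurentSeries ℚ)}

/-- a congruence at a place of `F_K` gives the congruence at its extension. -/
theorem e0_congAt_ext (P : DescPlaces K K' F₀) (v : Place K (laurentBaseChange K F₀))
    {f : laurentBaseChange K F₀} {c : K} (h : Pts.CongAt v f c) :
    Pts.CongAt (P.ext v) (descTheta K K' F₀ f) (algebraMap K K' c) := by
  rcases h with h | h
  · left
    rw [h, descTheta_algebraMap]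
  · right
    rw [← descTheta_algebraMap, ← map_sub, P.ord_ext]
    exact h

/-- **(E0)** a place of `F_K'` at which some `θ f` takes a value outside `K` is generic. -/
theorem isGen_of_ev_not_mem_pf [IsAlgClosed K] (hK : IsRRField K (laurentBaseChange K F₀))
    (hK' : IsRRField K' (laurentBaseChange K' F₀)) (w : Place K' (laurentBaseChange K' F₀))
    (f : laurentBaseChange K F₀) (hf : 0 ≤ w.ord (descTheta K K' F₀ f))
    (hc : Pts.ev w (descTheta K K' F₀ f) ∉ Set.range (algebraMap K K')) :
    IsGen F₀ K K' w := by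
  rcases (Fermat.Agent.ConstExt.descPlacesOfRR K K' F₀ hK).dich w with ⟨v, rfl⟩ | h
  · exfalso
    set P := Fermat.Agent.ConstExt.descPlacesOfRR K K' F₀ hK
    rw [P.ord_ext] at hf
    exact hc ⟨Pts.ev v f, (Pts.ev_eq_of_congAt (e0_congAt_ext P v (Pts.congAt_ev hK v hf))).symm⟩
  · exact h

/-- **(E0')** a place of `F_K'` at which a nonconstant `θ f` takes a value in `K` (or has a pole)
is an extension place, hence is fixed by `Aut(K'/K)`. -/
theorem smul_eq_of_ev_mem_pf [IsAlgClosed K] (hK : IsRRField K (laurentBaseChange K F₀))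
    (hK' : IsRRField K' (laurentBaseChange K' F₀)) (w : Place K' (laurentBaseChange K' F₀))
    (f : laurentBaseChange K F₀) (hf : f ∉ Set.range (algebraMap K (laurentBaseChange K F₀)))
    (hc : w.ord (descTheta K K' F₀ f) < 0 ∨
      Pts.ev w (descTheta K K' F₀ f) ∈ Set.range (algebraMap K K'))
    {σ : K' ≃ₐ[ℚ] K'} (hσ : σ ∈ descGal K K') : arithmeticGalois F₀ σ • w = w := by
  rcases (Fermat.Agent.ConstExt.descPlacesOfRR K K' F₀ hK).dich w with ⟨v, rfl⟩ | h
  · exact (Fermat.Agent.ConstExt.descPlacesOfRR K K' F₀ hK).smul_ext hσ v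
  · exfalso
    rcases hc with hlt | ⟨a, ha⟩
    · rw [h f] at hlt
      exact lt_irrefl _ hlt
    · have h0 : 0 ≤ w.ord (descTheta K K' F₀ f) := (h f).ge
      rcases (Pts.ev_eq_iff hK' w h0 (algebraMap K K' a)).mp ha.symm with h1 | h1
      · rw [← descTheta_algebraMap] at h1
        exact hf ⟨a, (descTheta_injective K K' F₀ h1).symm⟩
      · rw [← descTheta_algebraMap, ← map_sub, h (f - algebraMap K (laurentBaseChange K F₀) a)]
          at h1
        exact lt_irrefl _ h1

end Fermat.Agent.Div
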