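import Mathlib

set_option autoImplicit false

/-!
# DIV, work package E1 (helper44): the abstract algebra behind "a generic place is determined by
its value map"

`R` a commutative ring, `k` a field, `ε : R →+* k` a ring homomorphism with a section
`κ : k →+* R`, `u : R`.  `nearIdeal ε u = {r | ∃ A B, r * B = u * A ∧ ε B ≠ 0}` is the contraction
to `R` of the ideal generated by `u` in the localisation of `R` at `ker ε`.

For a field `F` and `θ : F →+* R` the set `nearSet = {a | θ a - κ (ε (θ a)) ∈ nearIdeal ε u}` is a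
subfield of `F` (`nearField`), and it contains every simple root of a polynomial with
coefficients in it (`mem_nearField_of_root`): this is the Taylor expansion / Hensel argument.
-/

noncomputable section

namespace Fermat.Agent.Div.GenAbs

open Polynomial

variable {R : Type*} [CommRing R] {k : Type*} [Field k]

/-- the contraction of `u R_𝔭`, `𝔭 = ker ε`. -/
def nearIdeal (ε : R →+* k) (u : R) : Ideal R where
  carrier := {r | ∃ A B : R, r * B = u * A ∧ ε B ≠ 0}
  zero_mem' := ⟨0, 1, by rw [zero_mul, mul_zero], by rw [map_one]; exact one_ne_zero⟩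
  add_mem' := by
    rintro r s ⟨A, B, h, hB⟩ ⟨A', B', h', hB'⟩
    refine ⟨A * B' + A' * B, B * B', ?_, ?_⟩
    · linear_combination B' * h + B * h'
    · rw [map_mul]
      exact mul_ne_zero hB hB'
  smul_mem' := by
    rintro c r ⟨A, B, h, hB⟩
    refine ⟨c * A, B, ?_, hB⟩
    rw [smul_eq_mul]
    linear_combination c * h

theorem mem_nearIdeal {ε : R →+* k} {u r : R} :
    r ∈ nearIdeal ε u ↔ ∃ A B : R, r * B = u * A ∧ ε B ≠ 0 := Iff.rfl

theorem self_mem_nearIdeal (ε : R →+* k) (u : R) : u ∈ nearIdeal ε u :=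
  ⟨1, 1, rfl, by rw [map_one]; exact one_ne_zero⟩

/-- `nearIdeal` is saturated with respect to the elements outside `ker ε`. -/
theorem mem_nearIdeal_of_mul {ε : R →+* k} {u r s : R} (h : r * s ∈ nearIdeal ε u)
    (hs : ε s ≠ 0) : r ∈ nearIdeal ε u := by
  obtain ⟨A, B, hAB, hB⟩ := h
  refine ⟨A, s * B, ?_, ?_⟩
  · rw [← hAB]; ring
  · rw [map_mul]
    exact mul_ne_zero hs hB

/-- the subring of the `r : R` with `r ≡ κ (ε r)` modulo `nearIdeal`. -/
def nearRing (ε : R →+* k) (κ : k →+* R) (hκ : ∀ c, ε (κ c) = c) (u : R) : Subring R where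
  carrier := {r | r - κ (ε r) ∈ nearIdeal ε u}
  zero_mem' := by
    show (0 : R) - κ (ε 0) ∈ nearIdeal ε u
    simp only [map_zero, sub_self]
    exact zero_mem _
  one_mem' := by
    show (1 : R) - κ (ε 1) ∈ nearIdeal ε u
    simp only [map_one, sub_self]
    exact zero_mem _
  add_mem' := by
    intro a b ha hb
    show (a + b) - κ (ε (a + b)) ∈ nearIdeal ε u
    have : (a + b) - κ (ε (a + b)) = (a - κ (ε a)) + (b - κ (ε b)) := by
      simp only [map_add]; ring
    rw [this]
    exact add_mem ha hb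
  neg_mem' := by
    intro a ha
    show (-a) - κ (ε (-a)) ∈ nearIdeal ε u
    have : (-a) - κ (ε (-a)) = -(a - κ (ε a)) := by
      simp only [map_neg]; ring
    rw [this]
    exact neg_mem ha
  mul_mem' := by
    intro a b ha hb
    show (a * b) - κ (ε (a * b)) ∈ nearIdeal ε u
    have : (a * b) - κ (ε (a * b)) = (a - κ (ε a)) * b + κ (ε a) * (b - κ (ε b)) := by
      simp only [map_mul]; ring
    rw [this]
    exact add_mem (Ideal.mul_mem_right _ _ ha) (Ideal.mul_mem_left _ _ hb)

theorem mem_nearRing {ε : R →+* k} {κ : k →+* R} {hκ : ∀ c, ε (κ c) = c} {u r : R} :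
    r ∈ nearRing ε κ hκ u ↔ r - κ (ε r) ∈ nearIdeal ε u := Iff.rfl

theorem kap_mem_nearRing {ε : R →+* k} {κ : k →+* R} {hκ : ∀ c, ε (κ c) = c} {u : R} (c : k) :
    κ c ∈ nearRing ε κ hκ u := by
  rw [mem_nearRing, hκ, sub_self]
  exact zero_mem _

variable {F : Type*} [Field F]

/-- the subfield of the `a : F` with `θ a ≡ κ (ε (θ a))` modulo `nearIdeal`. -/
def nearField (ε : R →+* k) (κ : k →+* R) (hκ : ∀ c, ε (κ c) = c) (u : R) (θ : F →+* R) :
    Subfield F where
  carrier := {a | θ a - κ (ε (θ a)) ∈ nearIdeal ε u}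
  zero_mem' := by
    show θ 0 - κ (ε (θ 0)) ∈ nearIdeal ε u
    simp only [map_zero, sub_self]
    exact zero_mem _
  one_mem' := by
    show θ 1 - κ (ε (θ 1)) ∈ nearIdeal ε u
    simp only [map_one, sub_self]
    exact zero_mem _
  add_mem' := by
    intro a b ha hb
    show θ (a + b) - κ (ε (θ (a + b))) ∈ nearIdeal ε u
    have : θ (a + b) - κ (ε (θ (a + b))) = (θ a - κ (ε (θ a))) + (θ b - κ (ε (θ b))) := by
      simp only [map_add]; ring
    rw [this]
    exact add_mem ha hb
  neg_mem' := by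
    intro a ha
    show θ (-a) - κ (ε (θ (-a))) ∈ nearIdeal ε u
    have : θ (-a) - κ (ε (θ (-a))) = -(θ a - κ (ε (θ a))) := by
      simp only [map_neg]; ring
    rw [this]
    exact neg_mem ha
  mul_mem' := by
    intro a b ha hb
    show θ (a * b) - κ (ε (θ (a * b))) ∈ nearIdeal ε u
    have : θ (a * b) - κ (ε (θ (a * b)))
        = (θ a - κ (ε (θ a))) * θ b + κ (ε (θ a)) * (θ b - κ (ε (θ b))) := by
      simp only [map_mul]; ring
    rw [this]
    exact add_mem (Ideal.mul_mem_right _ _ ha) (Ideal.mul_mem_left _ _ hb)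
  inv_mem' := by
    intro a ha
    show θ a⁻¹ - κ (ε (θ a⁻¹)) ∈ nearIdeal ε u
    rcases eq_or_ne a 0 with rfl | ha0
    · simp only [inv_zero, map_zero, sub_self]
      exact zero_mem _
    have hφ : ε (θ a) ≠ 0 := by
      intro h0
      have h1 : ε (θ (a * a⁻¹)) = 0 := by rw [map_mul, map_mul, h0, zero_mul]
      rw [mul_inv_cancel₀ ha0, map_one, map_one] at h1
      exact one_ne_zero h1
    have h1 : θ a * θ a⁻¹ = 1 := by rw [← map_mul, mul_inv_cancel₀ ha0, map_one]
    have h2 : κ (ε (θ a)) * κ (ε (θ a⁻¹)) = 1 := by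
      rw [← map_mul, ← map_mul, ← map_mul, mul_inv_cancel₀ ha0, map_one, map_one, map_one]
    refine mem_nearIdeal_of_mul (s := θ a * κ (ε (θ a))) ?_ ?_
    · have : (θ a⁻¹ - κ (ε (θ a⁻¹))) * (θ a * κ (ε (θ a))) = -(θ a - κ (ε (θ a))) := by
        linear_combination (κ (ε (θ a))) * h1 - (θ a) * h2
      rw [this]
      exact neg_mem ha
    · rw [map_mul, hκ]
      exact mul_ne_zero hφ hφ

theorem mem_nearField {ε : R →+* k} {κ : k →+* R} {hκ : ∀ c, ε (κ c) = c} {u : R}
    {θ : F →+* R} {a : F} :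
    a ∈ nearField ε κ hκ u θ ↔ θ a - κ (ε (θ a)) ∈ nearIdeal ε u := Iff.rfl

/-- the difference of the two evaluations of a polynomial with coefficients in `nearField`. -/
theorem eval_map_sub_mem {ε : R →+* k} {κ : k →+* R} {hκ : ∀ c, ε (κ c) = c} {u : R}
    {θ : F →+* R} (μ : F[X]) (hμ : ∀ i, μ.coeff i ∈ nearField ε κ hκ u θ) (y : R) :
    (μ.map θ).eval y - (μ.map ((κ.comp ε).comp θ)).eval y ∈ nearIdeal ε u := by
  rw [Polynomial.eval_map, Polynomial.eval_map, Polynomial.eval₂_eq_sum_range,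
    Polynomial.eval₂_eq_sum_range, ← Finset.sum_sub_distrib]
  refine Ideal.sum_mem _ fun i _ => ?_
  have : θ (μ.coeff i) * y ^ i - ((κ.comp ε).comp θ) (μ.coeff i) * y ^ i
      = (θ (μ.coeff i) - κ (ε (θ (μ.coeff i)))) * y ^ i := by
    simp only [RingHom.comp_apply]; ring
  rw [this]
  exact Ideal.mul_mem_right _ _ (hμ i)

/-- **Hensel / Taylor**: `nearField` contains the simple roots of the polynomials with
coefficients in `nearField`. -/
theorem mem_nearField_of_root {ε : R →+* k} {κ : k →+* R} {hκ : ∀ c, ε (κ c) = c} {u : R}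
    {θ : F →+* R} (μ : F[X]) (hμ : ∀ i, μ.coeff i ∈ nearField ε κ hκ u θ) {f : F}
    (hf : μ.eval f = 0) (hf' : μ.derivative.eval f ≠ 0) : f ∈ nearField ε κ hκ u θ := by
  rw [mem_nearField]
  set ψ : F →+* R := (κ.comp ε).comp θ with hψ
  set δ : R := θ f - κ (ε (θ f)) with hδ
  have hεδ : ε δ = 0 := by rw [hδ, map_sub, hκ, sub_self]
  -- `p (θ f) = 0`
  have h1 : (μ.map θ).eval (θ f) = 0 := by
    rw [Polynomial.eval_map, Polynomial.eval₂_at_apply, hf, map_zero]
  -- `p₀ (θ f) ∈ I`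
  have h2 : (μ.map ψ).eval (θ f) ∈ nearIdeal ε u := by
    have := eval_map_sub_mem (hκ := hκ) μ hμ (θ f)
    rw [h1, zero_sub] at this
    exact neg_mem_iff.mp this
  -- Taylor expansion of `p₀` at `κ d`
  obtain ⟨c, hc⟩ := Polynomial.binomExpansion (μ.map ψ) (κ (ε (θ f))) δ
  have h3 : κ (ε (θ f)) + δ = θ f := by rw [hδ]; ring
  have h4 : (μ.map ψ).eval (κ (ε (θ f))) = 0 := by
    have : κ (ε (θ f)) = ψ f := rfl
    rw [this, Polynomial.eval_map, Polynomial.eval₂_at_apply, hf, map_zero]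
  have h5 : (μ.map ψ).derivative.eval (κ (ε (θ f))) = ψ (μ.derivative.eval f) := by
    have : κ (ε (θ f)) = ψ f := rfl
    rw [this, Polynomial.derivative_map, Polynomial.eval_map, Polynomial.eval₂_at_apply]
  rw [h3, h4, h5, zero_add] at hc
  -- `p₀ (θ f) = δ * B₀`
  have h6 : (μ.map ψ).eval (θ f) = δ * (ψ (μ.derivative.eval f) + c * δ) := by
    rw [hc]; ring
  rw [h6] at h2
  refine mem_nearIdeal_of_mul h2 ?_
  rw [map_add, map_mul, hεδ, mul_zero, add_zero]
  have : ε (ψ (μ.derivative.eval f)) = ε (θ (μ.derivative.eval f)) := by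
    rw [hψ, RingHom.comp_apply, RingHom.comp_apply, hκ]
  rw [this]
  intro h0
  have hinj : Function.Injective (ε.comp θ) := by
    exact (ε.comp θ).injective
  exact hf' (hinj (by rw [RingHom.comp_apply, h0, map_zero]))

end Fermat.Agent.Div.GenAbs
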