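import Mathlib
import Fermat.Agent.Lib.ConstExt.Basic
import Fermat.Agent.Lib.RR.Basic
import Fermat.Agent.S17.Pts.Eval
import Fermat.Agent.Lib.Div.Gen.Abstract

set_option autoImplicit false

/-!
# DIV, work package E1 (helper44): generic places of a constant field extension, core

Generic setting of `Lib/ConstExt`: `K → C` fields, `φ : FK →+* FC` a constant field extension,
`R = C[φ FK]` (`thetaRing`).  A place `w` of `FC/C` which is trivial on `φ FK` ("generic")
contains `R`; its value map restricted to `R` is a ring homomorphism `evR : R →+* C`.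
With `u = φ x - c`, `c` the value of `φ x`, every element of `R` is `u ^ m * (s / t)` with
`s, t ∈ R` of nonzero value (`exists_factor`), so the valuation of `w` on `R`, hence `w` itself,
is determined by the value map (`place_eq_of_ev_eq`).
-/

noncomputable section

namespace Fermat.Agent.Div.GenCore

open AlgebraicCurve Fermat.Agent.RR Fermat.Agent.S17 Fermat.Agent.Div.GenAbs
open Fermat.Agent.ConstExt

universe uK uC uFK uFC

variable {K : Type uK} {C : Type uC} {FK : Type uFK} {FC : Type uFC}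
  [Field K] [Field C] [Field FK] [Field FC] [Algebra K C] [Algebra K FK] [Algebra C FC]

/-- the place `w` is trivial on `φ FK`. -/
def Triv (φ : FK →+* FC) (w : Place C FC) : Prop := ∀ f : FK, w.ord (φ f) = 0

/-! ### the ring `R = C[φ FK]` -/

/-- the ring `C[φ FK]`. -/
def thetaRing (φ : FK →+* FC) : Subalgebra C FC := Algebra.adjoin C (Set.range φ)

variable {φ : FK →+* FC}

theorem theta_mem_thetaRing (f : FK) : φ f ∈ thetaRing (C := C) φ :=
  Algebra.subset_adjoin ⟨f, rfl⟩

variable (C φ) in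
/-- `φ` as a ring homomorphism into `R`. -/
def thetaR : FK →+* thetaRing (C := C) φ :=
  φ.codRestrict (thetaRing (C := C) φ) theta_mem_thetaRing

@[simp]
theorem coe_thetaR (f : FK) : ((thetaR C φ f : thetaRing (C := C) φ) : FC) = φ f := rfl

theorem ord_nonneg_of_mem_thetaRing {w : Place C FC} (hw : Triv φ w) {r : FC}
    (hr : r ∈ thetaRing (C := C) φ) : 0 ≤ w.ord r := by
  induction hr using Algebra.adjoin_induction with
  | mem x hx =>
      obtain ⟨f, rfl⟩ := hx
      exact (hw f).ge
  | algebraMap c => rw [Fermat.Agent.S24Res.ord_algebraMap]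
  | add x y _ _ hx hy =>
      exact Fermat.Agent.S24Res.ord_nonneg_of_mem w
        (add_mem (Fermat.Agent.S24Res.mem_of_ord_nonneg w hx)
          (Fermat.Agent.S24Res.mem_of_ord_nonneg w hy))
  | mul x y _ _ hx hy =>
      exact Fermat.Agent.S24Res.ord_nonneg_of_mem w
        (mul_mem (Fermat.Agent.S24Res.mem_of_ord_nonneg w hx)
          (Fermat.Agent.S24Res.mem_of_ord_nonneg w hy))

/-- the value map of a generic place on `R`. -/
def evR (hC : IsRRField C FC) (w : Place C FC) (hw : Triv φ w) : thetaRing (C := C) φ →+* C where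
  toFun r := Pts.ev w (r : FC)
  map_one' := Pts.ev_one w
  map_zero' := Pts.ev_zero w
  map_mul' r s := Pts.ev_mul hC w (ord_nonneg_of_mem_thetaRing hw r.2)
    (ord_nonneg_of_mem_thetaRing hw s.2)
  map_add' r s := Pts.ev_add hC w (ord_nonneg_of_mem_thetaRing hw r.2)
    (ord_nonneg_of_mem_thetaRing hw s.2)

theorem evR_apply (hC : IsRRField C FC) (w : Place C FC) (hw : Triv φ w)
    (r : thetaRing (C := C) φ) : evR hC w hw r = Pts.ev w (r : FC) := rfl

theorem evR_algebraMap (hC : IsRRField C FC) (w : Place C FC) (hw : Triv φ w) (c : C) :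
    evR hC w hw (algebraMap C (thetaRing (C := C) φ) c) = c :=
  Pts.ev_algebraMap w c

/-- an element of `R` of nonzero value is a unit at `w`. -/
theorem ord_eq_zero_of_evR_ne_zero (hC : IsRRField C FC) {w : Place C FC} (hw : Triv φ w)
    {r : thetaRing (C := C) φ} (hr : evR hC w hw r ≠ 0) : w.ord (r : FC) = 0 := by
  have h0 : 0 ≤ w.ord (r : FC) := ord_nonneg_of_mem_thetaRing hw r.2
  have hr0 : (r : FC) ≠ 0 := by
    intro h
    apply hr
    rw [evR_apply, h, Pts.ev_zero]
  by_contra hne
  have hpos : 0 < w.ord (r : FC) := lt_of_le_of_ne h0 (Ne.symm hne)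
  exact hr ((Pts.ev_eq_zero_iff hC w hr0 h0).mpr hpos)

/-- an element of `R` of value zero has positive order. -/
theorem ord_pos_of_evR_eq_zero (hC : IsRRField C FC) {w : Place C FC} (hw : Triv φ w)
    {r : thetaRing (C := C) φ} (hr0 : r ≠ 0) (hr : evR hC w hw r = 0) : 0 < w.ord (r : FC) := by
  have h0 : 0 ≤ w.ord (r : FC) := ord_nonneg_of_mem_thetaRing hw r.2
  have hr0' : (r : FC) ≠ 0 := fun h => hr0 (Subtype.ext h)
  exact (Pts.ev_eq_zero_iff hC w hr0' h0).mp hr

/-- two generic places with the same value map on `φ FK` have the same value map on `R`. -/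
theorem evR_eq_of_ev_eq (hC : IsRRField C FC) {P Q : Place C FC} (hP : Triv φ P)
    (hQ : Triv φ Q) (h : ∀ f : FK, Pts.ev P (φ f) = Pts.ev Q (φ f))
    (r : thetaRing (C := C) φ) : evR hC P hP r = evR hC Q hQ r := by
  obtain ⟨r, hr⟩ := r
  show Pts.ev P r = Pts.ev Q r
  induction hr using Algebra.adjoin_induction with
  | mem x hx =>
      obtain ⟨f, rfl⟩ := hx
      exact h f
  | algebraMap c => rw [Pts.ev_algebraMap, Pts.ev_algebraMap]
  | add x y hx hy ihx ihy =>
      rw [Pts.ev_add hC P (ord_nonneg_of_mem_thetaRing hP hx) (ord_nonneg_of_mem_thetaRing hP hy),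
        Pts.ev_add hC Q (ord_nonneg_of_mem_thetaRing hQ hx) (ord_nonneg_of_mem_thetaRing hQ hy),
        ihx, ihy]
  | mul x y hx hy ihx ihy =>
      rw [Pts.ev_mul hC P (ord_nonneg_of_mem_thetaRing hP hx) (ord_nonneg_of_mem_thetaRing hP hy),
        Pts.ev_mul hC Q (ord_nonneg_of_mem_thetaRing hQ hx) (ord_nonneg_of_mem_thetaRing hQ hy),
        ihx, ihy]

/-! ### every function is congruent to its value modulo `u` -/

section Near

variable (hC : IsRRField C FC) (w : Place C FC) (hw : Triv φ w)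

variable (C φ) in
/-- the constants as a ring homomorphism `C →+* R`. -/
def kapR : C →+* thetaRing (C := C) φ := algebraMap C (thetaRing (C := C) φ)

theorem evR_kapR (c : C) : evR hC w hw (kapR C φ c) = c := evR_algebraMap hC w hw c

/-- the local parameter `u = φ x - c`. -/
def uPar (x : FK) : thetaRing (C := C) φ :=
  thetaR C φ x - kapR C φ (evR hC w hw (thetaR C φ x))

theorem evR_uPar (x : FK) : evR hC w hw (uPar hC w hw x) = 0 := by
  rw [uPar, map_sub, evR_kapR, sub_self]

theorem uPar_ne_zero {x : FK} (hx : ∀ c : C, φ x ≠ algebraMap C FC c) :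
    uPar hC w hw x ≠ 0 := by
  intro h0
  have h1 : thetaR C φ x = kapR C φ (evR hC w hw (thetaR C φ x)) := sub_eq_zero.mp h0
  exact hx _ (congrArg (fun z : thetaRing (C := C) φ => (z : FC)) h1)

/-- the subfield of the functions congruent to their value modulo `u`. -/
def nearF (x : FK) : Subfield FK :=
  nearField (evR hC w hw) (kapR C φ) (evR_kapR hC w hw) (uPar hC w hw x) (thetaR C φ)

theorem algebraMap_mem_nearF (hcomm : ∀ a : K, φ (algebraMap K FK a)
    = algebraMap C FC (algebraMap K C a)) (x : FK) (a : K) :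
    algebraMap K FK a ∈ nearF hC w hw x := by
  show thetaR C φ _ - kapR C φ (evR hC w hw (thetaR C φ _)) ∈ nearIdeal _ _
  have h1 : (thetaR C φ (algebraMap K FK a) : thetaRing (C := C) φ)
      = kapR C φ (algebraMap K C a) := Subtype.ext (hcomm a)
  rw [h1, evR_kapR, sub_self]
  exact zero_mem _

theorem self_mem_nearF (x : FK) : x ∈ nearF hC w hw x :=
  self_mem_nearIdeal _ _

open scoped IntermediateField in
theorem adjoin_le_nearF (hcomm : ∀ a : K, φ (algebraMap K FK a)
    = algebraMap C FC (algebraMap K C a)) (x : FK) (y : FK)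
    (hy : y ∈ K⟮x⟯) : y ∈ nearF hC w hw x := by
  let T : IntermediateField K FK :=
    (nearF hC w hw x).toIntermediateField (algebraMap_mem_nearF hC w hw hcomm x)
  have hle : K⟮x⟯ ≤ T :=
    IntermediateField.adjoin_simple_le_iff.mpr (self_mem_nearF hC w hw x)
  exact hle hy

open scoped IntermediateField in
/-- **every function is congruent to its value modulo `u`** (`FK` finite over `K(x)`,
characteristic `0`). -/
theorem mem_nearF [CharZero FK] (hcomm : ∀ a : K, φ (algebraMap K FK a)
    = algebraMap C FC (algebraMap K C a)) {x : FK}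
    (hfin : FiniteDimensional K⟮x⟯ FK) (f : FK) : f ∈ nearF hC w hw x := by
  have : CharZero K⟮x⟯ := ⟨fun a b h => by
    have h1 := congrArg (fun z : K⟮x⟯ => (z : FK)) h
    simpa using h1⟩
  have hint : IsIntegral K⟮x⟯ f := Algebra.IsIntegral.isIntegral f
  have hsep : (minpoly K⟮x⟯ f).Separable := (minpoly.irreducible hint).separable
  refine mem_nearField_of_root ((minpoly K⟮x⟯ f).map (algebraMap K⟮x⟯ FK)) ?_ ?_ ?_
  · intro i
    rw [Polynomial.coeff_map]
    exact adjoin_le_nearF hC w hw hcomm x _ ((minpoly K⟮x⟯ f).coeff i).2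
  · rw [Polynomial.eval_map_algebraMap]
    exact minpoly.aeval _ _
  · rw [Polynomial.derivative_map, Polynomial.eval_map_algebraMap]
    exact hsep.aeval_derivative_ne_zero (minpoly.aeval _ _)

/-- every element of `R` is congruent to its value modulo `u`. -/
theorem sub_kapR_mem_nearIdeal {x : FK} (hall : ∀ f : FK, f ∈ nearF hC w hw x)
    (r : thetaRing (C := C) φ) :
    r - kapR C φ (evR hC w hw r) ∈ nearIdeal (evR hC w hw) (uPar hC w hw x) := by
  suffices h : r ∈ nearRing (evR hC w hw) (kapR C φ) (evR_kapR hC w hw) (uPar hC w hw x) from h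
  obtain ⟨r, hr⟩ := r
  induction hr using Algebra.adjoin_induction with
  | mem y hy =>
      obtain ⟨f, rfl⟩ := hy
      exact hall f
  | algebraMap c => exact kap_mem_nearRing c
  | add y z hy hz ihy ihz => exact add_mem ihy ihz
  | mul y z hy hz ihy ihz => exact mul_mem ihy ihz

end Near

/-! ### factorisation in `R` and the valuation -/

theorem ord_pow_nat' (w : Place C FC) (f : FC) (n : ℕ) : w.ord (f ^ n) = n * w.ord f := by
  have := w.ord_zpow f (n : ℤ)
  rwa [zpow_natCast] at this

/-- every nonzero element of `R` is `u ^ m * (s / t)` with `s`, `t` of nonzero value. -/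
theorem exists_factor (hC : IsRRField C FC) {w : Place C FC} (hw : Triv φ w) {x : FK}
    (hxc : ∀ c : C, φ x ≠ algebraMap C FC c) (hall : ∀ f : FK, f ∈ nearF hC w hw x) :
    ∀ (n : ℕ) (r : thetaRing (C := C) φ), r ≠ 0 → w.ord (r : FC) ≤ n →
      ∃ (m : ℕ) (s t : thetaRing (C := C) φ), evR hC w hw s ≠ 0 ∧ evR hC w hw t ≠ 0 ∧
        r * t = uPar hC w hw x ^ m * s := by
  have hu0 : uPar hC w hw x ≠ 0 := uPar_ne_zero hC w hw hxc
  have hupos : 0 < w.ord ((uPar hC w hw x : thetaRing (C := C) φ) : FC) :=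
    ord_pos_of_evR_eq_zero hC hw hu0 (evR_uPar hC w hw x)
  intro n
  induction n with
  | zero =>
      intro r hr0 hr
      have hε : evR hC w hw r ≠ 0 := by
        intro h0
        have := ord_pos_of_evR_eq_zero hC hw hr0 h0
        simp only [Nat.cast_zero] at hr
        omega
      exact ⟨0, r, 1, hε, by rw [map_one]; exact one_ne_zero, by rw [pow_zero, mul_one, one_mul]⟩
  | succ n ih =>
      intro r hr0 hr
      by_cases hε : evR hC w hw r = 0
      · have h := sub_kapR_mem_nearIdeal hC w hw hall r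
        rw [hε, map_zero, sub_zero] at h
        obtain ⟨A, B, hAB, hB⟩ := h
        have hB0 : B ≠ 0 := by
          rintro rfl
          exact hB (map_zero _)
        have hA0 : A ≠ 0 := by
          rintro rfl
          rw [mul_zero] at hAB
          exact (mul_ne_zero hr0 hB0) hAB
        have hr0' : (r : FC) ≠ 0 := fun h => hr0 (Subtype.ext h)
        have hB0' : (B : FC) ≠ 0 := fun h => hB0 (Subtype.ext h)
        have hA0' : (A : FC) ≠ 0 := fun h => hA0 (Subtype.ext h)
        have hu0' : ((uPar hC w hw x : thetaRing (C := C) φ) : FC) ≠ 0 :=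
          fun h => hu0 (Subtype.ext h)
        have hAB' : (r : FC) * (B : FC)
            = ((uPar hC w hw x : thetaRing (C := C) φ) : FC) * (A : FC) :=
          congrArg (fun z : thetaRing (C := C) φ => (z : FC)) hAB
        have hord := congrArg w.ord hAB'
        rw [w.ord_mul hr0' hB0', w.ord_mul hu0' hA0', ord_eq_zero_of_evR_ne_zero hC hw hB,
          add_zero] at hord
        have hAn : w.ord (A : FC) ≤ n := by
          push_cast at hr
          omega
        obtain ⟨m, s, t, hs, ht, hst⟩ := ih A hA0 hAn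
        refine ⟨m + 1, s, B * t, hs, ?_, ?_⟩
        · rw [map_mul]
          exact mul_ne_zero hB ht
        · rw [← mul_assoc, hAB, mul_assoc, hst, pow_succ]
          ring
      · exact ⟨0, r, 1, hε, by rw [map_one]; exact one_ne_zero,
          by rw [pow_zero, mul_one, one_mul]⟩

/-- the order of an element of `R` from a factorisation. -/
theorem ord_eq_of_factor (hC : IsRRField C FC) {w : Place C FC} (hw : Triv φ w)
    {u r s t : thetaRing (C := C) φ} {m : ℕ} (hu : u ≠ 0) (hs : evR hC w hw s ≠ 0)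
    (ht : evR hC w hw t ≠ 0) (h : r * t = u ^ m * s) :
    w.ord (r : FC) = m * w.ord (u : FC) := by
  have hs0 : (s : FC) ≠ 0 := by
    intro h0
    apply hs
    rw [evR_apply, h0, Pts.ev_zero]
  have ht0 : (t : FC) ≠ 0 := by
    intro h0
    apply ht
    rw [evR_apply, h0, Pts.ev_zero]
  have hu0 : (u : FC) ≠ 0 := fun h0 => hu (Subtype.ext h0)
  have h' : (r : FC) * (t : FC) = (u : FC) ^ m * (s : FC) :=
    congrArg (fun z : thetaRing (C := C) φ => (z : FC)) h
  have hr0 : (r : FC) ≠ 0 := by
    intro h0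
    rw [h0, zero_mul] at h'
    exact (mul_ne_zero (pow_ne_zero m hu0) hs0) h'.symm
  have hord := congrArg w.ord h'
  rw [w.ord_mul hr0 ht0, w.ord_mul (pow_ne_zero m hu0) hs0, ord_pow_nat',
    ord_eq_zero_of_evR_ne_zero hC hw hs, ord_eq_zero_of_evR_ne_zero hC hw ht, add_zero,
    add_zero] at hord
  exact hord

theorem Phi_mem_thetaRing (g : Idx K C →₀ FK) : Phi K C φ g ∈ thetaRing (C := C) φ := by
  rw [Phi_apply, Finsupp.sum]
  exact sum_mem fun j _ =>
    mul_mem ((thetaRing (C := C) φ).algebraMap_mem _) (theta_mem_thetaRing _)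

open scoped IntermediateField in
/-- one inclusion of the valuation rings. -/
theorem ord_nonneg_of_ev_eq [CharZero FK] (hφ : IsConstExt (K := K) (C := C) φ)
    (hC : IsRRField C FC) {P Q : Place C FC} (hP : Triv φ P) (hQ : Triv φ Q)
    (h : ∀ f : FK, Pts.ev P (φ f) = Pts.ev Q (φ f)) {x : FK}
    (hxc : ∀ c : C, φ x ≠ algebraMap C FC c) (hfin : FiniteDimensional K⟮x⟯ FK)
    {z : FC} (hz : 0 ≤ P.ord z) : 0 ≤ Q.ord z := by
  rcases eq_or_ne z 0 with rfl | hz0
  · rw [Place.ord_zero]
  obtain ⟨g, g', hg', hgg'⟩ := exists_frac hφ z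
  set a : thetaRing (C := C) φ := ⟨Phi K C φ g, Phi_mem_thetaRing g⟩ with ha
  set b : thetaRing (C := C) φ := ⟨Phi K C φ g', Phi_mem_thetaRing g'⟩ with hb
  have hb0 : b ≠ 0 := fun h0 => hg' (congrArg (fun z : thetaRing (C := C) φ => (z : FC)) h0)
  have ha0' : (a : FC) ≠ 0 := by
    show Phi K C φ g ≠ 0
    rw [← hgg']
    exact mul_ne_zero hz0 hg'
  have ha0 : a ≠ 0 := fun h0 => ha0' (by rw [h0]; rfl)
  have hallP := mem_nearF hC P hP hφ.comm hfin
  have huPQ : uPar hC P hP x = uPar hC Q hQ x := by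
    unfold uPar
    rw [evR_eq_of_ev_eq hC hP hQ h]
  have hu0 : uPar hC P hP x ≠ 0 := uPar_ne_zero hC P hP hxc
  obtain ⟨ma, sa, ta, hsa, hta, hfa⟩ :=
    exists_factor hC hP hxc hallP (P.ord (a : FC)).toNat a ha0 (Int.self_le_toNat _)
  obtain ⟨mb, sb, tb, hsb, htb, hfb⟩ :=
    exists_factor hC hP hxc hallP (P.ord (b : FC)).toNat b hb0 (Int.self_le_toNat _)
  have hPa := ord_eq_of_factor hC hP hu0 hsa hta hfa
  have hPb := ord_eq_of_factor hC hP hu0 hsb htb hfb
  have hQa : Q.ord (a : FC) = ma * Q.ord ((uPar hC P hP x : thetaRing (C := C) φ) : FC) :=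
    ord_eq_of_factor hC hQ hu0 (by rwa [← evR_eq_of_ev_eq hC hP hQ h])
      (by rwa [← evR_eq_of_ev_eq hC hP hQ h]) hfa
  have hQb : Q.ord (b : FC) = mb * Q.ord ((uPar hC P hP x : thetaRing (C := C) φ) : FC) :=
    ord_eq_of_factor hC hQ hu0 (by rwa [← evR_eq_of_ev_eq hC hP hQ h])
      (by rwa [← evR_eq_of_ev_eq hC hP hQ h]) hfb
  have hePpos : 0 < P.ord ((uPar hC P hP x : thetaRing (C := C) φ) : FC) :=
    ord_pos_of_evR_eq_zero hC hP hu0 (evR_uPar hC P hP x)
  have heQpos : 0 < Q.ord ((uPar hC P hP x : thetaRing (C := C) φ) : FC) := by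
    rw [huPQ]
    exact ord_pos_of_evR_eq_zero hC hQ (huPQ ▸ hu0) (evR_uPar hC Q hQ x)
  have hb0' : (b : FC) ≠ 0 := hg'
  have hzab : z * (b : FC) = (a : FC) := hgg'
  have hPz : P.ord z + P.ord (b : FC) = P.ord (a : FC) := by
    rw [← P.ord_mul hz0 hb0', hzab]
  have hQz : Q.ord z + Q.ord (b : FC) = Q.ord (a : FC) := by
    rw [← Q.ord_mul hz0 hb0', hzab]
  rw [hPa, hPb] at hPz
  rw [hQa, hQb] at hQz
  have hm : (mb : ℤ) ≤ ma := by
    by_contra hcon
    rw [not_le] at hcon
    have : (ma : ℤ) * P.ord ((uPar hC P hP x : thetaRing (C := C) φ) : FC)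
        < mb * P.ord ((uPar hC P hP x : thetaRing (C := C) φ) : FC) :=
      mul_lt_mul_of_pos_right hcon hePpos
    omega
  have : (mb : ℤ) * Q.ord ((uPar hC P hP x : thetaRing (C := C) φ) : FC)
      ≤ ma * Q.ord ((uPar hC P hP x : thetaRing (C := C) φ) : FC) :=
    mul_le_mul_of_nonneg_right hm heQpos.le
  omega

open scoped IntermediateField in
/-- **(E1), generic form**: a place which is trivial on `φ FK` is determined by its value map. -/
theorem place_eq_of_ev_eq [CharZero FK] (hφ : IsConstExt (K := K) (C := C) φ)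
    (hC : IsRRField C FC) {P Q : Place C FC} (hP : Triv φ P) (hQ : Triv φ Q)
    (h : ∀ f : FK, Pts.ev P (φ f) = Pts.ev Q (φ f)) {x : FK}
    (hxc : ∀ c : C, φ x ≠ algebraMap C FC c) (hfin : FiniteDimensional K⟮x⟯ FK) : P = Q := by
  apply Place.ext
  ext z
  rw [Fermat.Agent.S24Res.mem_iff_ord_nonneg, Fermat.Agent.S24Res.mem_iff_ord_nonneg]
  exact ⟨ord_nonneg_of_ev_eq hφ hC hP hQ h hxc hfin,
    ord_nonneg_of_ev_eq hφ hC hQ hP (fun f => (h f).symm) hxc hfin⟩

end Fermat.Agent.Div.GenCore
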