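import Fermat.Agent.Lib.Div.Defs
import Fermat.Agent.Lib.Div.Gen.Core

set_option autoImplicit false

/-!
# DIV, work package E1 (helper44): the core for `θ = descTheta K K' F₀`

* `GenSpec.isGen_smul_pf`, `GenSpec.ev_smul_theta` : Galois translates of generic places;
* `GenSpec.place_eq_of_ev_theta_eq` : **(E1)** a generic place is determined by its value map
  (instance of `GenCore.place_eq_of_ev_eq`).
-/

noncomputable section

namespace Fermat.Agent.Div.GenSpec

open ModularCurve HahnSeries AlgebraicCurve Fermat.Agent.RR Fermat.Agent.F3I2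
open Fermat.Agent.S17

variable {K K' : Type*} [Field K] [Field K'] [Algebra ℚ K] [Algebra ℚ K'] [Algebra K K']
variable {F₀ : IntermediateField ℚ (LaurentSeries ℚ)}

theorem isGen_smul_pf {σ : K' ≃ₐ[ℚ] K'} (hσ : σ ∈ descGal K K')
    {w : Place K' (laurentBaseChange K' F₀)} (hw : IsGen F₀ K K' w) :
    IsGen F₀ K K' (arithmeticGalois F₀ σ • w) := by
  intro f
  have h1 := SemilinearAut.ord_smul (arithmeticGalois F₀ σ) w (descTheta K K' F₀ f)
  rw [descGal_smul_theta F₀ hσ] at h1
  rw [h1]
  exact hw f

theorem ev_smul_theta (hK' : IsRRField K' (laurentBaseChange K' F₀)) {σ : K' ≃ₐ[ℚ] K'}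
    (hσ : σ ∈ descGal K K') (w : Place K' (laurentBaseChange K' F₀))
    (f : laurentBaseChange K F₀) :
    Pts.ev (arithmeticGalois F₀ σ • w) (descTheta K K' F₀ f)
      = σ (Pts.ev w (descTheta K K' F₀ f)) := by
  have h1 := Pts.ev_smul hK' (arithmeticGalois F₀ σ) w (descTheta K K' F₀ f)
  rw [descGal_smul_theta F₀ hσ] at h1
  rw [h1]
  rfl

/-- a function whose image under `θ` is constant is constant. -/
theorem mem_range_of_theta_eq_algebraMap {f : laurentBaseChange K F₀} {c : K'}
    (h : descTheta K K' F₀ f = algebraMap K' (laurentBaseChange K' F₀) c) :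
    f ∈ Set.range (algebraMap K (laurentBaseChange K F₀)) := by
  have h1 : coeffMap (algebraMap K K') (f : LaurentSeries K)
      = algebraMap K' (LaurentSeries K') c :=
    congrArg (fun z : laurentBaseChange K' F₀ => (z : LaurentSeries K')) h
  refine ⟨(f : LaurentSeries K).coeff 0, Subtype.ext ?_⟩
  show algebraMap K (LaurentSeries K) _ = (f : LaurentSeries K)
  rw [algebraMap_laurentSeries_eq_single]
  ext n
  have h2 := congrArg (fun z => z.coeff n) h1
  simp only [coeffMap_coeff, algebraMap_laurentSeries_eq_single] at h2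
  by_cases hn : n = 0
  · subst hn
    simp
  · rw [HahnSeries.coeff_single_of_ne hn] at h2 ⊢
    exact ((algebraMap K K').injective (by rw [h2, map_zero])).symm

/-- **(E1)** a generic place is determined by its value map. -/
theorem place_eq_of_ev_theta_eq (hK : IsRRField K (laurentBaseChange K F₀))
    (hK' : IsRRField K' (laurentBaseChange K' F₀))
    (P Q : Place K' (laurentBaseChange K' F₀)) (hP : IsGen F₀ K K' P) (hQ : IsGen F₀ K K' Q)
    (h : ∀ f : laurentBaseChange K F₀,
      Pts.ev P (descTheta K K' F₀ f) = Pts.ev Q (descTheta K K' F₀ f)) : P = Q := by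
  have hK0 : CharZero K := algebraRat.charZero K
  have hF0 : CharZero (laurentBaseChange K F₀) :=
    charZero_of_injective_algebraMap (algebraMap K (laurentBaseChange K F₀)).injective
  obtain ⟨x, hx, hfin, -⟩ := hK.exists_x
  have hxc : ∀ c : K', descTheta K K' F₀ x ≠ algebraMap K' (laurentBaseChange K' F₀) c := by
    intro c hc
    obtain ⟨a, ha⟩ := mem_range_of_theta_eq_algebraMap hc
    exact hx (ha ▸ isAlgebraic_algebraMap a)
  exact GenCore.place_eq_of_ev_eq (Fermat.Agent.ConstExt.isConstExt_descTheta K K' F₀) hK'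
    hP hQ h hxc hfin

end Fermat.Agent.Div.GenSpec
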